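import Mathlib.Analysis.Complex.UpperHalfPlane.MoebiusAction
import Mathlib.Analysis.SpecialFunctions.Pow.Real
import Mathlib.Topology.Order.IntermediateValue
import Mathlib.Tactic

/-!
# Crossing homomorphisms

For rational vectors `u`, `v` (standing for cusps) and `Γ ≤ SL(2, ℤ)`, the signed number of
translates of the geodesic from `u` to `v` crossed by a path `z → γ z` is a homomorphism of `Γ`.
-/

set_option autoImplicit false

noncomputable section

namespace Fermat.Agent.LevelRaising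

open UpperHalfPlane Matrix Function
open scoped MatrixGroups BigOperators

/-- real part of `(u₀ - u₁ z) · conj (v₀ - v₁ z)` -/
def geoForm (u v : Fin 2 → ℝ) (z : ℍ) : ℝ :=
  (u 0 - u 1 * z.re) * (v 0 - v 1 * z.re) + u 1 * v 1 * z.im ^ 2

/-- the determinant of two vectors -/
def wedge {R : Type*} [CommRing R] (u v : Fin 2 → R) : R := u 0 * v 1 - u 1 * v 0

/-- the side of `z` with respect to the oriented geodesic from `u` to `v` -/
def sideR (u v : Fin 2 → ℝ) (z : ℍ) : ℤ := if 0 < wedge u v * geoForm u v z then 1 else 0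

/-- casting a rational vector -/
def toR (u : Fin 2 → ℚ) : Fin 2 → ℝ := fun i => (u i : ℝ)

/-- the side for rational vectors -/
def side (u v : Fin 2 → ℚ) (z : ℍ) : ℤ := sideR (toR u) (toR v) z

theorem geoForm_eq_re (u v : Fin 2 → ℝ) (z : ℍ) :
    geoForm u v z = (((u 0 : ℂ) - u 1 * z) * starRingEnd ℂ ((v 0 : ℂ) - v 1 * z)).re := by
  simp [geoForm, Complex.mul_re]
  ring

theorem sideR_smul_left {c : ℝ} (hc : c ≠ 0) (u v : Fin 2 → ℝ) (z : ℍ) :
    sideR (c • u) v z = sideR u v z := by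
  have h : wedge (c • u) v * geoForm (c • u) v z = c ^ 2 * (wedge u v * geoForm u v z) := by
    simp [wedge, geoForm]; ring
  simp only [sideR, h, mul_pos_iff_of_pos_left (by positivity : 0 < c ^ 2)]

theorem sideR_smul_right {c : ℝ} (hc : c ≠ 0) (u v : Fin 2 → ℝ) (z : ℍ) :
    sideR u (c • v) z = sideR u v z := by
  have h : wedge u (c • v) * geoForm u (c • v) z = c ^ 2 * (wedge u v * geoForm u v z) := by
    simp [wedge, geoForm]; ring
  simp only [sideR, h, mul_pos_iff_of_pos_left (by positivity : 0 < c ^ 2)]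

theorem toR_smul (c : ℚ) (u : Fin 2 → ℚ) : toR (c • u) = (c : ℝ) • toR u := by
  ext i; simp [toR]

theorem wedge_toR (u v : Fin 2 → ℚ) : wedge (toR u) (toR v) = ((wedge u v : ℚ) : ℝ) := by
  simp [wedge, toR]

theorem side_smul_left {c : ℚ} (hc : c ≠ 0) (u v : Fin 2 → ℚ) (z : ℍ) :
    side (c • u) v z = side u v z := by
  rw [side, toR_smul, sideR_smul_left (by exact_mod_cast hc)]; rfl

theorem side_smul_right {c : ℚ} (hc : c ≠ 0) (u v : Fin 2 → ℚ) (z : ℍ) :
    side u (c • v) z = side u v z := by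
  rw [side, toR_smul, sideR_smul_right (by exact_mod_cast hc)]; rfl

theorem side_eq_zero_of_wedge {u v : Fin 2 → ℚ} (h : wedge u v = 0) (z : ℍ) : side u v z = 0 := by
  simp [side, sideR, wedge_toR, h]

theorem sideR_mulVec_smul (g : GL (Fin 2) ℝ) (hg : 0 < g.det.val) (u v : Fin 2 → ℝ) (z : ℍ) :
    sideR ((g : Matrix (Fin 2) (Fin 2) ℝ) *ᵥ u) ((g : Matrix (Fin 2) (Fin 2) ℝ) *ᵥ v) (g • z)
      = sideR u v z := by
  have hD : g.det.val = g 0 0 * g 1 1 - g 0 1 * g 1 0 := by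
    rw [GeneralLinearGroup.val_det_apply, Matrix.det_fin_two]
  have hlin : ∀ w : Fin 2 → ℝ,
      ((((g : Matrix (Fin 2) (Fin 2) ℝ) *ᵥ w) 0 : ℝ) : ℂ)
        - ((((g : Matrix (Fin 2) (Fin 2) ℝ) *ᵥ w) 1 : ℝ) : ℂ) * ((g • z : ℍ) : ℂ)
        = (g.det.val : ℂ) / denom g z * ((w 0 : ℂ) - w 1 * z) := by
    intro w
    have hne : (g 1 0 : ℂ) * z + g 1 1 ≠ 0 := denom_ne_zero g z
    rw [coe_smul_of_det_pos hg]
    simp only [num, denom, Matrix.mulVec, dotProduct, Fin.sum_univ_two, hD]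
    push_cast
    rw [mul_div_assoc', div_mul_eq_mul_div, sub_div' hne, div_left_inj' hne]
    ring
  have hw : wedge ((g : Matrix (Fin 2) (Fin 2) ℝ) *ᵥ u) ((g : Matrix (Fin 2) (Fin 2) ℝ) *ᵥ v)
      = g.det.val * wedge u v := by
    simp [wedge, Matrix.mulVec, dotProduct, Fin.sum_univ_two, hD]; ring
  have hf : geoForm ((g : Matrix (Fin 2) (Fin 2) ℝ) *ᵥ u) ((g : Matrix (Fin 2) (Fin 2) ℝ) *ᵥ v)
      (g • z) = g.det.val ^ 2 / Complex.normSq (denom g z) * geoForm u v z := by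
    rw [geoForm_eq_re, geoForm_eq_re, hlin, hlin, map_mul, mul_mul_mul_comm,
      Complex.mul_conj, ← Complex.re_ofReal_mul, map_div₀, Complex.normSq_ofReal, pow_two]
  have hn : 0 < g.det.val * (g.det.val ^ 2 / Complex.normSq (denom g z)) :=
    mul_pos hg (div_pos (by positivity) (normSq_denom_pos g z.im_ne_zero))
  simp only [sideR, hw, hf]
  rw [mul_mul_mul_comm]
  simp only [mul_pos_iff_of_pos_left hn]

/-- Moving the point by `g` is moving the vectors by any nonzero multiple of `g⁻¹`. -/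
theorem side_glSmul (g : GL (Fin 2) ℝ) (hg : 0 < g.det.val) (M : Matrix (Fin 2) (Fin 2) ℚ)
    {c : ℝ} (hc : c ≠ 0)
    (hM : (g : Matrix (Fin 2) (Fin 2) ℝ) * M.map (fun x => (x : ℝ)) = c • 1)
    (u v : Fin 2 → ℚ) (z : ℍ) : side u v (g • z) = side (M *ᵥ u) (M *ᵥ v) z := by
  have hu : ∀ w : Fin 2 → ℚ, toR w = (g : Matrix (Fin 2) (Fin 2) ℝ) *ᵥ (c⁻¹ • toR (M *ᵥ w)) := by
    intro w
    have : toR (M *ᵥ w) = M.map (fun x => (x : ℝ)) *ᵥ toR w := by
      ext i; simp [toR, Matrix.mulVec, dotProduct]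
    rw [Matrix.mulVec_smul, this, Matrix.mulVec_mulVec, hM, Matrix.smul_mulVec, Matrix.one_mulVec,
      smul_smul, inv_mul_cancel₀ hc, one_smul]
  rw [side, hu u, hu v, sideR_mulVec_smul g hg, sideR_smul_left (inv_ne_zero hc),
    sideR_smul_right (inv_ne_zero hc)]
  rfl

/-- an integral matrix acting on rational vectors -/
def act (g : SL(2, ℤ)) (u : Fin 2 → ℚ) : Fin 2 → ℚ :=
  (g : Matrix (Fin 2) (Fin 2) ℤ).map (fun x => (x : ℚ)) *ᵥ u

theorem act_apply (g : SL(2, ℤ)) (u : Fin 2 → ℚ) (i : Fin 2) :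
    act g u i = g i 0 * u 0 + g i 1 * u 1 := by
  simp [act, Matrix.mulVec, dotProduct, Fin.sum_univ_two]

theorem act_one (u : Fin 2 → ℚ) : act 1 u = u := by
  ext i; fin_cases i <;> simp [act_apply]

theorem act_mul (g h : SL(2, ℤ)) (u : Fin 2 → ℚ) : act (g * h) u = act g (act h u) := by
  ext i; fin_cases i <;>
    simp [act_apply, Matrix.mul_apply, Fin.sum_univ_two] <;> ring

theorem wedge_act (g : SL(2, ℤ)) (u v : Fin 2 → ℚ) : wedge (act g u) (act g v) = wedge u v := by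
  have h : ((g 0 0 * g 1 1 - g 0 1 * g 1 0 : ℤ) : ℚ) = 1 := by
    rw [← Matrix.det_fin_two, g.det_coe, Int.cast_one]
  push_cast at h
  simp only [wedge, act_apply]
  linear_combination (u 0 * v 1 - u 1 * v 0) * h

theorem side_smul_point (g : SL(2, ℤ)) (u v : Fin 2 → ℚ) (z : ℍ) :
    side u v (g • z) = side (act g⁻¹ u) (act g⁻¹ v) z := by
  refine side_glSmul (Matrix.SpecialLinearGroup.mapGL ℝ g) (by simp) _ one_ne_zero ?_ u v z
  have h : ((g * g⁻¹ : SL(2, ℤ)) : Matrix (Fin 2) (Fin 2) ℤ).map (algebraMap ℤ ℝ) = 1 := by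
    simp
  rw [Matrix.SpecialLinearGroup.coe_mul, Matrix.map_mul] at h
  rw [one_smul, ← h, Matrix.SpecialLinearGroup.mapGL_coe_matrix]
  congr 1

section Finite

/-- the squared length of `u` in the metric of `z` -/
def lenSq (u : Fin 2 → ℝ) (z : ℍ) : ℝ := geoForm u u z

theorem lenSq_eq (u : Fin 2 → ℝ) (z : ℍ) :
    lenSq u z = (u 0 - u 1 * z.re) ^ 2 + (u 1 * z.im) ^ 2 := by
  simp [lenSq, geoForm]; ring

theorem lenSq_mul (u v : Fin 2 → ℝ) (z : ℍ) :
    lenSq u z * lenSq v z = geoForm u v z ^ 2 + (z.im * wedge u v) ^ 2 := by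
  simp [lenSq, geoForm, wedge]; ring

theorem lenSq_add (u v : Fin 2 → ℝ) (z : ℍ) :
    lenSq (-(u + v)) z = lenSq u z + lenSq v z + 2 * geoForm u v z := by
  simp [lenSq, geoForm]; ring

/-- lower bound for the length of a nonzero integral vector -/
theorem le_lenSq {a : Fin 2 → ℤ} (ha : a ≠ 0) {z : ℍ} {m : ℝ} (hm : 0 < m) (hz : m ≤ z.im) :
    min 1 (m ^ 2) ≤ lenSq (fun i => (a i : ℝ)) z := by
  rw [lenSq_eq]
  by_cases h1 : a 1 = 0
  · have h0 : a 0 ≠ 0 := fun h0 => ha (by ext i; fin_cases i <;> simp [h0, h1])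
    have : (1 : ℝ) ≤ (a 0 : ℝ) ^ 2 := by
      have : (1 : ℤ) ≤ a 0 ^ 2 := by nlinarith [mul_self_pos.mpr h0]
      exact_mod_cast this
    refine (min_le_left _ _).trans ?_
    simp [h1]
    simpa using this
  · have : (1 : ℝ) ≤ (a 1 : ℝ) ^ 2 := by
      have : (1 : ℤ) ≤ a 1 ^ 2 := by nlinarith [mul_self_pos.mpr h1]
      exact_mod_cast this
    refine (min_le_right _ _).trans ?_
    have h2 : m ^ 2 ≤ z.im ^ 2 := pow_le_pow_left₀ hm.le hz 2
    nlinarith [sq_nonneg ((a 0 : ℝ) - a 1 * z.re), mul_le_mul_of_nonneg_right this (sq_nonneg z.im)]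

theorem abs_entry_le {a : Fin 2 → ℤ} {z : ℍ} {m R K : ℝ} (hm : 0 < m) (hz : m ≤ z.im)
    (hR : |z.re| ≤ R) (hK : lenSq (fun i => (a i : ℝ)) z ≤ K) (i : Fin 2) :
    |(a i : ℝ)| ≤ 1 + 2 * K + K / m ^ 2 + 2 * R ^ 2 * (K / m ^ 2) := by
  rw [lenSq_eq] at hK
  have hK0 : 0 ≤ K := le_trans (by positivity) hK
  have h2 : m ^ 2 ≤ z.im ^ 2 := pow_le_pow_left₀ hm.le hz 2
  have hc : (a 1 : ℝ) ^ 2 ≤ K / m ^ 2 := by
    rw [le_div_iff₀ (by positivity)]
    nlinarith [mul_le_mul_of_nonneg_left h2 (sq_nonneg (a 1 : ℝ)),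
      sq_nonneg ((a 0 : ℝ) - a 1 * z.re)]
  have hre : z.re ^ 2 ≤ R ^ 2 := sq_le_sq' (by linarith [(abs_le.mp hR).1]) (abs_le.mp hR).2
  have ha0 : (a 0 : ℝ) ^ 2 ≤ 2 * K + 2 * R ^ 2 * (K / m ^ 2) := by
    have e1 : ((a 0 : ℝ) - a 1 * z.re) ^ 2 ≤ K := by nlinarith [sq_nonneg ((a 1 : ℝ) * z.im)]
    have e2 : ((a 1 : ℝ) * z.re) ^ 2 ≤ R ^ 2 * (K / m ^ 2) := by
      rw [mul_pow, mul_comm (R ^ 2)]
      exact mul_le_mul hc hre (sq_nonneg _) (by positivity)
    nlinarith [sq_nonneg ((a 0 : ℝ) - 2 * a 1 * z.re)]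
  have habs : ∀ x : ℝ, |x| ≤ 1 + x ^ 2 := fun x => by
    nlinarith [sq_abs x, sq_nonneg (|x| - 1)]
  have : (0 : ℝ) ≤ K / m ^ 2 := by positivity
  have : (0 : ℝ) ≤ 2 * R ^ 2 * (K / m ^ 2) := by positivity
  fin_cases i <;> simp only [Fin.zero_eta, Fin.mk_one] <;>
    linarith [habs (a 0 : ℝ), habs (a 1 : ℝ)]

theorem exists_int_multiple (u : Fin 2 → ℚ) :
    ∃ (c : ℚ) (a : Fin 2 → ℤ), c ≠ 0 ∧ c • u = fun i => (a i : ℚ) := by
  refine ⟨((u 0).den * (u 1).den : ℕ), ![(u 0).num * (u 1).den, (u 1).num * (u 0).den],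
    by simp [Rat.den_ne_zero], ?_⟩
  ext i
  fin_cases i <;> simp only [Fin.zero_eta, Fin.mk_one, Pi.smul_apply, smul_eq_mul,
    Matrix.cons_val_zero, Matrix.cons_val_one] <;> push_cast
  · rw [← Rat.mul_den_eq_num (u 0)]; ring
  · rw [← Rat.mul_den_eq_num (u 1)]; ring

theorem exists_int_multiple₂ (u v : Fin 2 → ℚ) :
    ∃ (c : ℚ) (a b : Fin 2 → ℤ), c ≠ 0 ∧ c • u = (fun i => (a i : ℚ)) ∧
      c • v = fun i => (b i : ℚ) := by
  refine ⟨((u 0).den * (u 1).den * (v 0).den * (v 1).den : ℕ),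
    ![(u 0).num * ((u 1).den * (v 0).den * (v 1).den), (u 1).num * ((u 0).den * (v 0).den * (v 1).den)],
    ![(v 0).num * ((u 0).den * (u 1).den * (v 1).den), (v 1).num * ((u 0).den * (u 1).den * (v 0).den)],
    by simp [Rat.den_ne_zero], ?_, ?_⟩ <;> ext i <;>
    fin_cases i <;> simp only [Fin.zero_eta, Fin.mk_one, Pi.smul_apply, smul_eq_mul,
      Matrix.cons_val_zero, Matrix.cons_val_one] <;> push_cast
  · rw [← Rat.mul_den_eq_num (u 0)]; ring
  · rw [← Rat.mul_den_eq_num (u 1)]; ring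
  · rw [← Rat.mul_den_eq_num (v 0)]; ring
  · rw [← Rat.mul_den_eq_num (v 1)]; ring

/-- the image of an integral vector under an element of `SL(2, ℤ)` -/
def actZ (g : SL(2, ℤ)) (a : Fin 2 → ℤ) : Fin 2 → ℤ := (g : Matrix (Fin 2) (Fin 2) ℤ) *ᵥ a

theorem act_intCast (g : SL(2, ℤ)) (a : Fin 2 → ℤ) :
    act g (fun i => (a i : ℚ)) = fun i => (actZ g a i : ℚ) := by
  ext i; simp [act_apply, actZ, Matrix.mulVec, dotProduct, Fin.sum_univ_two]

theorem wedge_actZ (g : SL(2, ℤ)) (a b : Fin 2 → ℤ) :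
    wedge (actZ g a) (actZ g b) = wedge a b := by
  have h : g 0 0 * g 1 1 - g 0 1 * g 1 0 = 1 := by rw [← Matrix.det_fin_two, g.det_coe]
  simp only [wedge, actZ, Matrix.mulVec, dotProduct, Fin.sum_univ_two]
  linear_combination (a 0 * b 1 - a 1 * b 0) * h

/-- the real vector attached to an integral one -/
def intR (a : Fin 2 → ℤ) : Fin 2 → ℝ := fun i => (a i : ℝ)

theorem toR_intCast (a : Fin 2 → ℤ) : toR (fun i => (a i : ℚ)) = intR a := by
  ext i; simp [toR, intR]

/-- Only finitely many elements of `SL(2, ℤ)` keep two independent vectors bounded. -/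
theorem finite_lenSq_le {a b : Fin 2 → ℤ} (hab : wedge a b ≠ 0) (m R K : ℝ) (hm : 0 < m) :
    {g : SL(2, ℤ) | ∃ z : ℍ, m ≤ z.im ∧ |z.re| ≤ R ∧ lenSq (intR (actZ g⁻¹ a)) z ≤ K ∧
      lenSq (intR (actZ g⁻¹ b)) z ≤ K}.Finite := by
  set n : ℤ := ⌈1 + 2 * K + K / m ^ 2 + 2 * R ^ 2 * (K / m ^ 2)⌉
  have hbox : (Set.univ.pi fun _ : Fin 2 => Set.Icc (-n) n : Set (Fin 2 → ℤ)).Finite :=
    Set.Finite.pi fun _ => Set.finite_Icc _ _
  refine Set.Finite.of_finite_image (f := fun g => (actZ g⁻¹ a, actZ g⁻¹ b))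
    ((hbox.prod hbox).subset ?_) ?_
  · rintro _ ⟨g, ⟨z, hz, hR, ha, hb⟩, rfl⟩
    have key : ∀ {c : Fin 2 → ℤ}, lenSq (intR c) z ≤ K → ∀ i, c i ∈ Set.Icc (-n) n := by
      intro c hc i
      have h1 := (abs_entry_le hm hz hR hc i).trans (Int.le_ceil _)
      rw [Set.mem_Icc, ← abs_le]
      exact_mod_cast h1
    exact ⟨fun i _ => key ha i, fun i _ => key hb i⟩
  · intro g _ h _ hgh
    simp only [Prod.mk.injEq] at hgh
    refine inv_injective (Subtype.ext ?_)
    have e : ∀ i, (g⁻¹).1 i 0 * a 0 + (g⁻¹).1 i 1 * a 1 = (h⁻¹).1 i 0 * a 0 + (h⁻¹).1 i 1 * a 1 ∧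
        (g⁻¹).1 i 0 * b 0 + (g⁻¹).1 i 1 * b 1 = (h⁻¹).1 i 0 * b 0 + (h⁻¹).1 i 1 * b 1 := fun i =>
      ⟨by simpa [actZ, Matrix.mulVec, dotProduct, Fin.sum_univ_two] using congrFun hgh.1 i,
       by simpa [actZ, Matrix.mulVec, dotProduct, Fin.sum_univ_two] using congrFun hgh.2 i⟩
    ext i j
    obtain ⟨e1, e2⟩ := e i
    fin_cases j <;> simp only [Fin.zero_eta, Fin.mk_one] <;> refine mul_left_cancel₀ hab ?_ <;>
      simp only [wedge]
    · linear_combination b 1 * e1 - a 1 * e2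
    · linear_combination a 0 * e2 - b 0 * e1

theorem intR_ne {a b : Fin 2 → ℤ} (hab : wedge a b ≠ 0) : a ≠ 0 ∧ b ≠ 0 := by
  constructor <;> rintro rfl <;> simp [wedge] at hab

/-- Finitely many translates of a geodesic meet a compact rectangle. -/
theorem finite_geoForm_eq_zero {u v : Fin 2 → ℚ} (huv : wedge u v ≠ 0) (m R T : ℝ) (hm : 0 < m) :
    {g : SL(2, ℤ) | ∃ z : ℍ, m ≤ z.im ∧ z.im ≤ T ∧ |z.re| ≤ R ∧
      geoForm (toR (act g⁻¹ u)) (toR (act g⁻¹ v)) z = 0}.Finite := by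
  obtain ⟨c, a, hc, ha⟩ := exists_int_multiple u
  obtain ⟨d, b, hd, hb⟩ := exists_int_multiple v
  have hab : wedge a b ≠ 0 := by
    intro h
    refine huv ?_
    have e : c * d * wedge u v = ((wedge a b : ℤ) : ℚ) := by
      have a0 := congrFun ha 0; have a1 := congrFun ha 1
      have b0 := congrFun hb 0; have b1 := congrFun hb 1
      simp only [Pi.smul_apply, smul_eq_mul] at a0 a1 b0 b1
      simp only [wedge, Int.cast_sub, Int.cast_mul, ← a0, ← a1, ← b0, ← b1]
      ring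
    rw [h, Int.cast_zero] at e
    simpa [hc, hd] using e
  set K := (T * ((wedge a b : ℤ) : ℝ)) ^ 2 / min 1 (m ^ 2)
  refine (finite_lenSq_le hab m R K hm).subset ?_
  rintro g ⟨z, hz, hT, hR, h0⟩
  refine ⟨z, hz, hR, ?_⟩
  have h0' : geoForm (intR (actZ g⁻¹ a)) (intR (actZ g⁻¹ b)) z = 0 := by
    have e1 : intR (actZ g⁻¹ a) = (c : ℝ) • toR (act g⁻¹ u) := by
      rw [← toR_smul, ← toR_intCast, ← act_intCast, ← ha, act, act, Matrix.mulVec_smul]
    have e2 : intR (actZ g⁻¹ b) = (d : ℝ) • toR (act g⁻¹ v) := by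
      rw [← toR_smul, ← toR_intCast, ← act_intCast, ← hb, act, act, Matrix.mulVec_smul]
    rw [e1, e2]
    simp only [geoForm, Pi.smul_apply, smul_eq_mul] at h0 ⊢
    linear_combination (c : ℝ) * d * h0
  have hw : wedge (intR (actZ g⁻¹ a)) (intR (actZ g⁻¹ b)) = ((wedge a b : ℤ) : ℝ) := by
    rw [← wedge_actZ g⁻¹ a b]; simp [wedge, intR]
  have hprod := lenSq_mul (intR (actZ g⁻¹ a)) (intR (actZ g⁻¹ b)) z
  rw [h0', hw] at hprod
  have hne := intR_ne (a := actZ g⁻¹ a) (b := actZ g⁻¹ b) (by rwa [wedge_actZ])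
  have la := le_lenSq hne.1 hm hz
  have lb := le_lenSq hne.2 hm hz
  have hd0 : 0 < min 1 (m ^ 2) := lt_min one_pos (by positivity)
  change min 1 (m ^ 2) ≤ lenSq (intR _) z at la lb
  have hT' : (z.im * ((wedge a b : ℤ) : ℝ)) ^ 2 ≤ (T * ((wedge a b : ℤ) : ℝ)) ^ 2 := by
    rw [mul_pow, mul_pow]
    exact mul_le_mul_of_nonneg_right (pow_le_pow_left₀ z.im_pos.le hT 2) (sq_nonneg _)
  constructor <;> rw [le_div_iff₀ hd0]
  · nlinarith [mul_le_mul_of_nonneg_left lb (hd0.le.trans la)]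
  · nlinarith [mul_le_mul_of_nonneg_left la (hd0.le.trans lb)]

theorem finite_side_ne (u v : Fin 2 → ℚ) (z w : ℍ) :
    {g : SL(2, ℤ) | side u v (g • z) ≠ side u v (g • w)}.Finite := by
  by_cases huv : wedge u v = 0
  · simp [side_eq_zero_of_wedge huv]
  refine (finite_geoForm_eq_zero huv (min z.im w.im) (max |z.re| |w.re|) (max z.im w.im)
    (lt_min z.im_pos w.im_pos)).subset ?_
  intro g hg
  rw [Set.mem_ofPred_eq, side_smul_point, side_smul_point] at hg
  set u' := toR (act g⁻¹ u)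
  set v' := toR (act g⁻¹ v)
  let X : ℝ → ℝ := fun t => (1 - t) * z.re + t * w.re
  let Y : ℝ → ℝ := fun t => (1 - t) * z.im + t * w.im
  let L : ℝ → ℝ := fun t =>
    wedge u' v' * ((u' 0 - u' 1 * X t) * (v' 0 - v' 1 * X t) + u' 1 * v' 1 * Y t ^ 2)
  have hL : Continuous L := by fun_prop
  have h01 : (0 : ℝ) ∈ Set.uIcc (L 0) (L 1) := by
    have e0 : L 0 = wedge u' v' * geoForm u' v' z := by simp [L, X, Y, geoForm]
    have e1 : L 1 = wedge u' v' * geoForm u' v' w := by simp [L, X, Y, geoForm]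
    simp only [side, sideR] at hg
    rw [← e0, ← e1] at hg
    rw [Set.mem_uIcc]
    split_ifs at hg with h1 h2 h3
    · exact absurd rfl hg
    · exact Or.inr ⟨not_lt.mp h2, h1.le⟩
    · exact Or.inl ⟨not_lt.mp h1, h3.le⟩
    · exact absurd rfl hg
  obtain ⟨t, ht, ht0⟩ := intermediate_value_uIcc hL.continuousOn h01
  rw [Set.uIcc_of_le zero_le_one] at ht
  obtain ⟨ht1, ht2⟩ := ht
  have hY1 : min z.im w.im ≤ Y t := by
    simp only [Y]; nlinarith [min_le_left z.im w.im, min_le_right z.im w.im]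
  have hY2 : Y t ≤ max z.im w.im := by
    simp only [Y]; nlinarith [le_max_left z.im w.im, le_max_right z.im w.im]
  have hX : |X t| ≤ max |z.re| |w.re| := by
    simp only [X]
    rw [abs_le]
    constructor <;> nlinarith [abs_le.mp (le_max_left |z.re| |w.re|),
      abs_le.mp (le_max_right |z.re| |w.re|)]
  refine ⟨⟨⟨X t, Y t⟩, lt_of_lt_of_le (lt_min z.im_pos w.im_pos) hY1⟩, hY1, hY2, hX, ?_⟩
  have hw : wedge u' v' ≠ 0 := by
    rw [wedge_toR, wedge_act]; exact_mod_cast huv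
  exact (mul_eq_zero.mp ht0).resolve_left hw

end Finite

section Hom

variable (Γ : Subgroup SL(2, ℤ))

/-- base point -/
def rhoPt : ℍ := ⟨⟨-1 / 2, Real.sqrt 3 / 2⟩, by positivity⟩

theorem finite_support_side (u v : Fin 2 → ℚ) (z w : ℍ) :
    HasFiniteSupport fun g : Γ =>
      side u v ((g : SL(2, ℤ)) • z) - side u v ((g : SL(2, ℤ)) • w) :=
  ((finite_side_ne u v z w).preimage Subtype.val_injective.injOn).subset fun g hg => by
    simpa [sub_ne_zero] using hg

/-- the counting function of the translates of a geodesic -/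
def crossFun (u v : Fin 2 → ℚ) (z : ℍ) : ℤ :=
  ∑ᶠ g : Γ, (side u v ((g : SL(2, ℤ)) • z) - side u v ((g : SL(2, ℤ)) • rhoPt))

theorem crossFun_rho (u v : Fin 2 → ℚ) : crossFun Γ u v rhoPt = 0 := by simp [crossFun]

theorem crossFun_sub (u v : Fin 2 → ℚ) (z w : ℍ) :
    crossFun Γ u v z - crossFun Γ u v w =
      ∑ᶠ g : Γ, (side u v ((g : SL(2, ℤ)) • z) - side u v ((g : SL(2, ℤ)) • w)) := by
  rw [crossFun, crossFun, ← finsum_sub_distrib (finite_support_side Γ u v _ _)
    (finite_support_side Γ u v _ _)]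
  exact finsum_congr fun g => by ring

theorem crossFun_smul_sub (u v : Fin 2 → ℚ) (γ : Γ) (z w : ℍ) :
    crossFun Γ u v ((γ : SL(2, ℤ)) • z) - crossFun Γ u v ((γ : SL(2, ℤ)) • w) =
      crossFun Γ u v z - crossFun Γ u v w := by
  rw [crossFun_sub, crossFun_sub]
  simp only [← mul_smul, ← Subgroup.coe_mul]
  exact finsum_comp_equiv (Equiv.mulRight γ)
    (f := fun g : Γ => side u v ((g : SL(2, ℤ)) • z) - side u v ((g : SL(2, ℤ)) • w))

/-- the crossing homomorphism of the geodesic from `u` to `v` -/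
def crossHom (u v : Fin 2 → ℚ) : Additive Γ →+ ℤ where
  toFun γ := crossFun Γ u v (((Additive.toMul γ : Γ) : SL(2, ℤ)) • rhoPt)
  map_zero' := by simp [crossFun_rho]
  map_add' γ δ := by
    have := crossFun_smul_sub Γ u v (Additive.toMul γ)
      (((Additive.toMul δ : Γ) : SL(2, ℤ)) • rhoPt) rhoPt
    simp only [toMul_add, Subgroup.coe_mul, mul_smul, crossFun_rho, sub_zero] at this ⊢
    linarith

theorem crossHom_apply (u v : Fin 2 → ℚ) (γ : Γ) :
    crossHom Γ u v (Additive.ofMul γ) = crossFun Γ u v ((γ : SL(2, ℤ)) • rhoPt) := rfl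

variable {Γ}

theorem crossHom_congr {u v u' v' : Fin 2 → ℚ}
    (h : ∀ z, side u v z = side u' v' z) : crossHom Γ u v = crossHom Γ u' v' :=
  AddMonoidHom.ext fun _ => finsum_congr fun _ => by rw [h, h]

theorem crossHom_smul_left {c : ℚ} (hc : c ≠ 0) (u v : Fin 2 → ℚ) :
    crossHom Γ (c • u) v = crossHom Γ u v :=
  crossHom_congr (side_smul_left hc u v)

theorem crossHom_smul_right {c : ℚ} (hc : c ≠ 0) (u v : Fin 2 → ℚ) :
    crossHom Γ u (c • v) = crossHom Γ u v :=
  crossHom_congr (side_smul_right hc u v)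

theorem crossHom_eq_zero_of_wedge {u v : Fin 2 → ℚ} (h : wedge u v = 0) :
    crossHom Γ u v = 0 :=
  AddMonoidHom.ext fun γ => by
    rw [← ofMul_toMul γ, crossHom_apply, crossFun]
    simp [side_eq_zero_of_wedge h]

theorem crossHom_act (γ : Γ) (u v : Fin 2 → ℚ) :
    crossHom Γ (act (γ : SL(2, ℤ)) u) (act (γ : SL(2, ℤ)) v) = crossHom Γ u v := by
  refine AddMonoidHom.ext fun x => ?_
  rw [← ofMul_toMul x, crossHom_apply, crossHom_apply, crossFun, crossFun]
  refine (finsum_comp_equiv (Equiv.mulLeft γ)).symm.trans (finsum_congr fun g => ?_)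
  simp only [Equiv.coe_mulLeft, Subgroup.coe_mul, mul_smul]
  rw [side_smul_point (γ : SL(2, ℤ)), side_smul_point (γ : SL(2, ℤ))]
  simp only [← act_mul, inv_mul_cancel, act_one]

section Triangle

/-- If none of the inner products of three vectors with sum zero is positive, all three are
short. -/
theorem lenSq_le_of_acute {a b : Fin 2 → ℤ} (hab : wedge a b ≠ 0) (z : ℍ)
    (h1 : geoForm (intR a) (intR b) z ≤ 0)
    (h2 : 0 ≤ lenSq (intR a) z + geoForm (intR a) (intR b) z)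
    (h3 : 0 ≤ lenSq (intR b) z + geoForm (intR a) (intR b) z) :
    lenSq (intR a) z ≤ 2 * ((z.im * wedge (intR a) (intR b)) ^ 2 / min 1 (z.im ^ 2)) ∧
    lenSq (intR b) z ≤ 2 * ((z.im * wedge (intR a) (intR b)) ^ 2 / min 1 (z.im ^ 2)) := by
  have hd0 : 0 < min 1 (z.im ^ 2) := lt_min one_pos (by have := z.im_pos; positivity)
  have hne : -(a + b) ≠ 0 := by
    intro h
    have h' : b = -a := by
      rw [neg_eq_zero] at h; exact eq_neg_of_add_eq_zero_right h
    exact hab (by subst h'; simp [wedge]; ring)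
  have la : min 1 (z.im ^ 2) ≤ lenSq (intR a) z := le_lenSq (intR_ne hab).1 z.im_pos le_rfl
  have lb : min 1 (z.im ^ 2) ≤ lenSq (intR b) z := le_lenSq (intR_ne hab).2 z.im_pos le_rfl
  have lc : min 1 (z.im ^ 2) ≤ lenSq (intR (-(a + b))) z := le_lenSq hne z.im_pos le_rfl
  have e : intR (-(a + b)) = -(intR a + intR b) := by ext i; simp [intR]
  rw [e, lenSq_add] at lc
  have hmul := lenSq_mul (intR a) (intR b) z
  set x := geoForm (intR a) (intR b) z
  set d := min 1 (z.im ^ 2)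
  set W := (z.im * wedge (intR a) (intR b)) ^ 2
  have k1 : -x ≤ W / d := by
    rw [le_div_iff₀ hd0]
    nlinarith [mul_nonneg h2 h3, mul_le_mul_of_nonneg_left lc (neg_nonneg.mpr h1)]
  have k2 : lenSq (intR a) z + x ≤ W / d := by
    rw [le_div_iff₀ hd0]
    nlinarith [mul_le_mul_of_nonneg_left lb h2, mul_nonneg (neg_nonneg.mpr h1) h3]
  have k3 : lenSq (intR b) z + x ≤ W / d := by
    rw [le_div_iff₀ hd0]
    nlinarith [mul_le_mul_of_nonneg_left la h3, mul_nonneg (neg_nonneg.mpr h1) h2]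
  constructor <;> linarith

/-- Inner products of three vectors with sum zero, one of them positive, determine the sides. -/
theorem sideR_triangle (u v : Fin 2 → ℝ) (z : ℍ) (hne : wedge u v ≠ 0)
    (h : 0 < geoForm u v z ∨ lenSq u z + geoForm u v z < 0 ∨ lenSq v z + geoForm u v z < 0) :
    sideR u v z + sideR v (-(u + v)) z - sideR u (-(u + v)) z =
      if 0 < wedge u v then 0 else 1 := by
  have hA : geoForm u (-(u + v)) z = -(lenSq u z + geoForm u v z) := by
    simp [lenSq, geoForm]; ring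
  have hB : geoForm v (-(u + v)) z = -(lenSq v z + geoForm u v z) := by
    simp [lenSq, geoForm]; ring
  have hwA : wedge u (-(u + v)) = -wedge u v := by simp [wedge]; ring
  have hwB : wedge v (-(u + v)) = wedge u v := by simp [wedge]; ring
  have lu : 0 ≤ lenSq u z := by rw [lenSq_eq]; positivity
  have lv : 0 ≤ lenSq v z := by rw [lenSq_eq]; positivity
  have lc : 0 ≤ lenSq u z + lenSq v z + 2 * geoForm u v z := by
    rw [← lenSq_add, lenSq_eq]; positivity
  simp only [sideR, hA, hB, hwA, hwB]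
  set x := geoForm u v z
  set A := lenSq u z
  set B := lenSq v z
  rcases hne.lt_or_gt with hΔ | hΔ
  · simp only [neg_mul_neg, mul_pos_iff, hΔ, hΔ.not_gt, false_and, false_or, true_and,
      neg_lt_zero, if_false]
    rcases h with h | h | h <;> split_ifs <;> linarith
  · simp only [neg_mul_neg, mul_pos_iff, hΔ, hΔ.not_gt, false_and, or_false, true_and,
      Left.neg_pos_iff, if_true]
    rcases h with h | h | h <;> split_ifs <;> linarith

/-- The combination of the three sides of an ideal triangle is constant outside a finite set. -/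
theorem finite_triangle (u v w : Fin 2 → ℚ) (hw : w ≠ 0) (huv : wedge u v ≠ 0) :
    ∃ κ : ℤ, ∀ z : ℍ, {g : SL(2, ℤ) |
      side u v (g • z) + side v w (g • z) - side u w (g • z) ≠ κ}.Finite := by
  obtain ⟨α, β, rfl⟩ : ∃ α β : ℚ, w = α • u + β • v := by
    refine ⟨(w 0 * v 1 - w 1 * v 0) / wedge u v, (u 0 * w 1 - u 1 * w 0) / wedge u v, ?_⟩
    ext i
    simp only [Pi.add_apply, Pi.smul_apply, smul_eq_mul, div_mul_eq_mul_div, ← add_div]
    rw [eq_div_iff huv]
    fin_cases i <;> simp only [wedge, Fin.zero_eta, Fin.mk_one] <;> ring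
  by_cases hα : α = 0
  · subst hα
    have hβ : β ≠ 0 := by rintro rfl; simp at hw
    refine ⟨0, fun z => ?_⟩
    simp only [zero_smul, zero_add, side_smul_right hβ]
    simp [side_eq_zero_of_wedge (u := v) (v := v) (by simp [wedge]; ring)]
  by_cases hβ : β = 0
  · subst hβ
    refine ⟨1, fun z => (finite_geoForm_eq_zero huv z.im |z.re| z.im z.im_pos).subset fun g hg =>
      ⟨z, le_rfl, le_rfl, le_rfl, ?_⟩⟩
    simp only [zero_smul, add_zero, side_smul_right hα, Set.mem_ofPred_eq,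
      side_eq_zero_of_wedge (u := u) (v := u) (by simp [wedge]; ring), sub_zero,
      side_smul_point] at hg
    by_contra hne
    refine hg ?_
    simp only [side, sideR]
    set a := toR (act g⁻¹ u)
    set b := toR (act g⁻¹ v)
    have e : wedge b a * geoForm b a z = -(wedge a b * geoForm a b z) := by
      simp [wedge, geoForm]; ring
    have hne' : wedge a b * geoForm a b z ≠ 0 :=
      mul_ne_zero (by rw [wedge_toR, wedge_act]; exact_mod_cast huv) hne
    rw [e]
    rcases hne'.lt_or_gt with h | h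
    · rw [if_neg h.not_gt, if_pos (neg_pos.mpr h)]; rfl
    · rw [if_pos h, if_neg (fun h' => by linarith)]; rfl
  obtain ⟨c, A, B, hc, eA, eB⟩ := exists_int_multiple₂ (α • u) (β • v)
  have hAB : wedge A B ≠ 0 := by
    intro h
    refine huv ?_
    have e1 : ((wedge A B : ℤ) : ℚ) = c * α * (c * β) * wedge u v := by
      have a0 := congrFun eA 0; have a1 := congrFun eA 1
      have b0 := congrFun eB 0; have b1 := congrFun eB 1
      simp only [Pi.smul_apply, smul_eq_mul] at a0 a1 b0 b1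
      simp only [wedge, Int.cast_sub, Int.cast_mul, ← a0, ← a1, ← b0, ← b1]
      ring
    rw [h, Int.cast_zero] at e1
    simpa [hc, hα, hβ] using e1.symm
  have eC : (fun i => ((-(A + B)) i : ℚ)) = (-c) • (α • u + β • v) := by
    ext i
    have a0 := congrFun eA i
    have b0 := congrFun eB i
    simp only [Pi.smul_apply, Pi.add_apply, Pi.neg_apply, smul_eq_mul] at a0 b0 ⊢
    push_cast
    linear_combination a0 + b0
  refine ⟨if 0 < wedge A B then 0 else 1, fun z =>
    (finite_lenSq_le hAB z.im |z.re|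
      (2 * ((z.im * ((wedge A B : ℤ) : ℝ)) ^ 2 / min 1 (z.im ^ 2))) z.im_pos).subset fun g hg =>
      ⟨z, le_rfl, le_rfl, ?_⟩⟩
  rw [Set.mem_ofPred_eq] at hg
  have key : ∀ z' : ℍ, side u v z' + side v (α • u + β • v) z' - side u (α • u + β • v) z' =
      side (fun i => (A i : ℚ)) (fun i => (B i : ℚ)) z'
      + side (fun i => (B i : ℚ)) (fun i => ((-(A + B)) i : ℚ)) z'
      - side (fun i => (A i : ℚ)) (fun i => ((-(A + B)) i : ℚ)) z' := by
    intro z'
    rw [eC, ← eA, ← eB]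
    simp only [side_smul_left hc, side_smul_left hα, side_smul_left hβ, side_smul_right hc,
      side_smul_right hβ, side_smul_right (neg_ne_zero.mpr hc)]
  rw [key, side_smul_point, side_smul_point, side_smul_point, act_intCast, act_intCast,
    act_intCast] at hg
  simp only [side, toR_intCast] at hg
  set A' := actZ g⁻¹ A with hA'
  set B' := actZ g⁻¹ B with hB'
  have eW : ((wedge A B : ℤ) : ℝ) = wedge (intR A') (intR B') := by
    rw [← wedge_actZ g⁻¹ A B]; simp [wedge, intR, hA', hB']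
  have eC' : intR (actZ g⁻¹ (-(A + B))) = -(intR A' + intR B') := by
    ext i; simp [actZ, hA', hB', intR, Matrix.mulVec, dotProduct, Fin.sum_univ_two]; ring
  rw [eC'] at hg
  rw [eW]
  have hne : wedge A' B' ≠ 0 := by rwa [wedge_actZ]
  by_contra hlen
  refine hg ?_
  rw [sideR_triangle _ _ z (by rw [← eW]; exact_mod_cast hAB) ?_]
  · rw [← eW]; simp
  · by_contra hcon
    simp only [not_or, not_lt] at hcon
    exact hlen (lenSq_le_of_acute hne z hcon.1 hcon.2.1 hcon.2.2)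

end Triangle

theorem crossHom_add {u v w : Fin 2 → ℚ} (hu : u ≠ 0) (hv : v ≠ 0) (hw : w ≠ 0) :
    crossHom Γ u v + crossHom Γ v w = crossHom Γ u w := by
  by_cases huv : wedge u v = 0
  · obtain ⟨k, hk, rfl⟩ : ∃ k : ℚ, k ≠ 0 ∧ v = k • u := by
      simp only [wedge] at huv
      by_cases h0 : u 0 = 0
      · have h1 : u 1 ≠ 0 := fun h1 => hu (by ext i; fin_cases i <;> simp [h0, h1])
        have hv0 : v 0 = 0 := by simpa [h0, h1] using huv
        have hv1 : v 1 ≠ 0 := fun h => hv (by ext i; fin_cases i <;> simp [hv0, h])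
        refine ⟨v 1 / u 1, div_ne_zero hv1 h1, ?_⟩
        ext i; fin_cases i <;> simp [h0, hv0, h1]
      · have hv0 : v 0 ≠ 0 := by
          intro h
          have : v 1 = 0 := by simpa [h, h0] using huv
          exact hv (by ext i; fin_cases i <;> simp [h, this])
        refine ⟨v 0 / u 0, div_ne_zero hv0 h0, ?_⟩
        ext i; fin_cases i <;> simp only [Fin.zero_eta, Fin.mk_one, Pi.smul_apply, smul_eq_mul] <;>
          field_simp
        linear_combination huv
    rw [crossHom_eq_zero_of_wedge huv, crossHom_smul_left hk, zero_add]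
  obtain ⟨κ, hκ⟩ := finite_triangle u v w hw huv
  refine AddMonoidHom.ext fun x => ?_
  rw [← ofMul_toMul x]
  set γ := Additive.toMul x
  let tri : ℍ → ℤ := fun z' => side u v z' + side v w z' - side u w z'
  have hfin : ∀ z', HasFiniteSupport fun g : Γ => tri ((g : SL(2, ℤ)) • z') - κ := fun z' =>
    ((hκ z').preimage Subtype.val_injective.injOn).subset fun g hg => by
      simpa [tri, sub_ne_zero] using hg
  have h0 : ∑ᶠ g : Γ, ((tri ((g : SL(2, ℤ)) • ((γ : SL(2, ℤ)) • rhoPt)) - κ) -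
      (tri ((g : SL(2, ℤ)) • rhoPt) - κ)) = 0 := by
    rw [finsum_sub_distrib (hfin _) (hfin _), sub_eq_zero]
    simp only [← mul_smul, ← Subgroup.coe_mul]
    exact finsum_comp_equiv (Equiv.mulRight γ)
      (f := fun g : Γ => tri ((g : SL(2, ℤ)) • rhoPt) - κ)
  rw [AddMonoidHom.add_apply, ← sub_eq_zero]
  simp only [crossHom_apply, crossFun]
  refine Eq.trans ?_ h0
  refine Eq.trans (congrArg₂ (· - ·) (finsum_add_distrib (finite_support_side Γ u v _ _)
    (finite_support_side Γ v w _ _)).symm rfl) ?_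
  refine (finsum_sub_distrib ((finite_support_side Γ u v _ _).add (finite_support_side Γ v w _ _))
      (finite_support_side Γ u w _ _)).symm.trans ?_
  exact finsum_congr fun g => by simp only [tri, Pi.add_apply]; ring

end Hom

end Fermat.Agent.LevelRaising
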